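import Fermat.Agent.GalRep.Construct.Cyclotomic

/-!
# Every involution of `ℚ̄` acts as `-1` on `p`-power roots of unity, `p` odd

Its fixed field does not contain a square root of `-1` and sums of squares in it are squares
(Artin and Schreier), so it contains no root of unity of odd order `> 1`.
-/

set_option autoImplicit false

noncomputable section

namespace FermatAgent.Conductor

local notation "Qb" => AlgebraicClosure ℚ
local notation "GQ" => AlgebraicClosure ℚ ≃ₐ[ℚ] AlgebraicClosure ℚ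

variable {c : GQ}

theorem conj_conj_apply (hc : c * c = 1) (x : Qb) : c (c x) = x := by
  rw [← AlgEquiv.mul_apply, hc, AlgEquiv.one_apply]

theorem no_fixed_sqrt_neg_one (hc : c * c = 1) (hc1 : c ≠ 1) {s : Qb} (hs : c s = s) :
    s ^ 2 ≠ -1 := by
  intro hs2
  obtain ⟨z, hz⟩ : ∃ z, c z ≠ z := by
    by_contra h
    push Not at h
    exact hc1 (AlgEquiv.ext h)
  set w := z - c z with hw
  have hcw : c w = -w := by rw [hw, map_sub, conj_conj_apply hc, neg_sub]
  have hw0 : w ≠ 0 := sub_ne_zero.2 (Ne.symm hz)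
  obtain ⟨v, hv⟩ := IsAlgClosed.exists_pow_nat_eq w two_pos
  have hu : c (v * c v) = v * c v := by rw [map_mul, conj_conj_apply hc, mul_comm]
  have h2 : (s * (v * c v)) ^ 2 = w ^ 2 := by
    rw [mul_pow, mul_pow, ← map_pow, hv, hcw, hs2]
    ring
  have hfix : c (s * (v * c v)) = s * (v * c v) := by rw [map_mul, hs, hu]
  rcases sq_eq_sq_iff_eq_or_eq_neg.1 h2 with h | h
  · rw [h, hcw] at hfix
    exact hw0 (by linear_combination (-1 / 2 : Qb) * hfix)
  · rw [h, map_neg, hcw] at hfix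
    exact hw0 (by linear_combination (1 / 2 : Qb) * hfix)

theorem exists_fixed_sq_eq_add (hc : c * c = 1) (hc1 : c ≠ 1) {x y : Qb} (hx : c x = x)
    (hy : c y = y) : ∃ u : Qb, c u = u ∧ u ^ 2 = x ^ 2 + y ^ 2 := by
  obtain ⟨i, hi⟩ := IsAlgClosed.exists_pow_nat_eq (-1 : Qb) two_pos
  have hci : c i = -i := by
    have h : c i ^ 2 = i ^ 2 := by rw [← map_pow, hi, map_neg, map_one]
    exact (sq_eq_sq_iff_eq_or_eq_neg.1 h).resolve_left fun h' =>
      no_fixed_sqrt_neg_one hc hc1 h' hi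
  obtain ⟨r, hr⟩ := IsAlgClosed.exists_pow_nat_eq (x + i * y) two_pos
  refine ⟨r * c r, by rw [map_mul, conj_conj_apply hc, mul_comm], ?_⟩
  rw [mul_pow, ← map_pow, hr, map_add, map_mul, hx, hci, hy]
  linear_combination (-y ^ 2) * hi

theorem exists_fixed_sq_eq_sum (hc : c * c = 1) (hc1 : c ≠ 1) {ι : Type*} (s : Finset ι)
    (f : ι → Qb) (hf : ∀ i ∈ s, c (f i) = f i) :
    ∃ u : Qb, c u = u ∧ u ^ 2 = ∑ i ∈ s, f i ^ 2 := by
  classical
  induction s using Finset.induction with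
  | empty => exact ⟨0, map_zero _, by simp⟩
  | insert i s hi ih =>
    obtain ⟨u, hu, hu2⟩ := ih fun j hj => hf j (Finset.mem_insert_of_mem hj)
    obtain ⟨v, hv, hv2⟩ := exists_fixed_sq_eq_add hc hc1 (hf i (Finset.mem_insert_self i s)) hu
    exact ⟨v, hv, by rw [Finset.sum_insert hi, hv2, hu2]⟩

theorem apply_ne_self_of_pow_eq_one (hc : c * c = 1) (hc1 : c ≠ 1) {n : ℕ} (hn : Odd n) {ζ : Qb}
    (hζ : ζ ^ n = 1) (hζ1 : ζ ≠ 1) : c ζ ≠ ζ := by
  intro hfix
  obtain ⟨m, rfl⟩ := hn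
  have hsum : ∑ j ∈ Finset.range (2 * m + 1), ζ ^ j = 0 := by
    rw [geom_sum_eq hζ1, hζ, sub_self, zero_div]
  rw [Finset.sum_range_succ'] at hsum
  obtain ⟨u, hu, hu2⟩ := exists_fixed_sq_eq_sum hc hc1 (Finset.range (2 * m))
    (fun j => (ζ ^ (m + 1)) ^ (j + 1)) fun j _ => by rw [map_pow, map_pow, hfix]
  refine no_fixed_sqrt_neg_one hc hc1 hu ?_
  have e : ∀ j, ((ζ ^ (m + 1)) ^ (j + 1)) ^ 2 = ζ ^ (j + 1) := fun j => by
    rw [← pow_mul, ← pow_mul, ← mul_assoc, show (m + 1) * (j + 1) * 2 = (2 * m + 1) * (j + 1) + (j + 1) by ring,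
      pow_add, pow_mul, hζ, one_pow, one_mul]
  rw [hu2, Finset.sum_congr rfl fun j _ => e j, ← sub_eq_zero, sub_neg_eq_add]
  rwa [pow_zero] at hsum

/-- The cyclotomic character is `-1` at every involution, for odd `p`. -/
theorem cycChar_involution (p : ℕ) [Fact p.Prime] (hp2 : p ≠ 2) (hc : c * c = 1) (hc1 : c ≠ 1) :
    GalRep.cycChar p c = -1 := by
  have hsq : GalRep.cycChar p c * GalRep.cycChar p c = 1 := by rw [← map_mul, hc, map_one]
  refine (mul_self_eq_one_iff.1 hsq).resolve_left fun h1 => ?_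
  have : NeZero ((p : ℕ) : Qb) := ⟨Nat.cast_ne_zero.2 (Fact.out : p.Prime).ne_zero⟩
  obtain ⟨ζ, hζ⟩ := HasEnoughRootsOfUnity.exists_primitiveRoot Qb p
  have hpp : ζ ^ p ^ 1 = 1 := by rw [pow_one]; exact hζ.pow_eq_one
  have h := GalRep.cycChar_spec p c 1 hpp
  rw [h1, map_one, ZMod.val_one'' (by rw [pow_one]; exact (Fact.out : p.Prime).ne_one), pow_one] at h
  exact apply_ne_self_of_pow_eq_one hc hc1 ((Fact.out : p.Prime).odd_of_ne_two hp2)
    hζ.pow_eq_one (hζ.ne_one (Fact.out : p.Prime).one_lt) h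

end FermatAgent.Conductor
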