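import Fermat.Agent.GalRep.Density.BrauerNesbitt
import Fermat.Agent.GalRep.Density.Odd
import Fermat.Agent.GalRep.Tate.Curve
import Fermat.Agent.Conductor.Involution

/-!
# Residual representations with the characteristic polynomials of an irreducible `E[p]`
-/

set_option autoImplicit false

open scoped WeierstrassCurve.Affine TensorProduct
open Polynomial

noncomputable section

namespace FermatAgent.Conductor

open WeierstrassCurve WeierstrassCurve.Affine

local notation "Qb" => AlgebraicClosure ℚ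
local notation "GQ" => AlgebraicClosure ℚ ≃ₐ[ℚ] AlgebraicClosure ℚ

/-- A representation spanning all endomorphisms is irreducible. -/
theorem isIrreducible_of_span_eq_top {k : Type} [Field k] (ρ : ResidualGaloisRep k)
    (h : Submodule.span k (Set.range ρ.ρ) = ⊤) : ρ.IsIrreducible := by
  intro W hW
  by_cases h0 : W = ⊥
  · exact Or.inl h0
  refine Or.inr (eq_top_iff.2 fun y _ => ?_)
  obtain ⟨x, hx, hx0⟩ := Submodule.exists_mem_ne_zero_of_ne_bot h0
  have hall : ∀ f ∈ Submodule.span k (Set.range ρ.ρ), f x ∈ W := fun f hf => by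
    induction hf using Submodule.span_induction with
    | mem f hf => obtain ⟨σ, rfl⟩ := hf; exact hW σ x hx
    | zero => exact W.zero_mem
    | add f g _ _ hf hg => exact W.add_mem hf hg
    | smul c f _ hf => exact W.smul_mem c hf
  obtain ⟨φ, hφ⟩ : ∃ φ : Module.Dual k ρ.V, φ x ≠ 0 := Module.Projective.exists_dual_ne_zero k hx0
  have := hall (((φ x)⁻¹ • φ).smulRight y) (h ▸ Submodule.mem_top)
  simpa [LinearMap.smulRight_apply, inv_mul_cancel₀ hφ] using this

theorem span_range_map_eq_top {k₀ K : Type} [Field k₀] [Field K] (ψ : k₀ →+* K) {G : Type}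
    [Monoid G] (A : G →* Matrix (Fin 2) (Fin 2) k₀) (hA : Submodule.span k₀ (Set.range A) = ⊤) :
    Submodule.span K (Set.range fun g => (A g).map ψ) = ⊤ := by
  have hmem : ∀ M ∈ Submodule.span k₀ (Set.range A),
      M.map ψ ∈ Submodule.span K (Set.range fun g => (A g).map ψ) := fun M hM => by
    induction hM using Submodule.span_induction with
    | mem M hM => obtain ⟨g, rfl⟩ := hM; exact Submodule.subset_span ⟨g, rfl⟩
    | zero => simp
    | add M N _ _ hM hN => rw [Matrix.map_add ψ (map_add ψ)]; exact Submodule.add_mem _ hM hN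
    | smul c M _ hM =>
      rw [show (c • M).map ψ = ψ c • M.map ψ by ext i j; simp]
      exact Submodule.smul_mem _ _ hM
  refine eq_top_iff.2 fun N _ => ?_
  rw [Matrix.matrix_eq_sum_single N]
  refine Submodule.sum_mem _ fun i _ => Submodule.sum_mem _ fun j _ => ?_
  have h1 := hmem (Matrix.single i j 1) (hA ▸ Submodule.mem_top)
  rw [show Matrix.single i j (N i j) = N i j • (Matrix.single i j (1 : k₀)).map ψ by
    ext a b; simp [Matrix.single_apply]]
  exact Submodule.smul_mem _ _ h1

/-- Having the characteristic polynomials of an absolutely irreducible representation forces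
absolute irreducibility. -/
theorem isAbsolutelyIrreducible_of_charpoly_map {k₀ k : Type} [Field k₀] [Field k]
    (ρ₀ : ResidualGaloisRep k₀) (h₀ : ρ₀.IsAbsolutelyIrreducible) (φ : k₀ →+* k)
    (ρ : ResidualGaloisRep k) (h : ∀ σ : GQ, (ρ.ρ σ).charpoly = (ρ₀.ρ σ).charpoly.map φ) :
    ρ.IsAbsolutelyIrreducible := by
  set K := AlgebraicClosure k
  set b₀ := Module.finBasisOfFinrankEq k₀ ρ₀.V ρ₀.finrank_eq
  set b := Module.finBasisOfFinrankEq k ρ.V ρ.finrank_eq
  set ψ : k₀ →+* K := (algebraMap k K).comp φ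
  set a : GQ →* Matrix (Fin 2) (Fin 2) K :=
    ψ.mapMatrix.toMonoidHom.comp (GalRep.matrixHom b₀ ρ₀.ρ)
  set c : GQ →* Matrix (Fin 2) (Fin 2) K :=
    (algebraMap k K).mapMatrix.toMonoidHom.comp (GalRep.matrixHom b ρ.ρ)
  have ha : Submodule.span K (Set.range a) = ⊤ := span_range_map_eq_top ψ _
    ((GalRep.span_range_matrixHom b₀ ρ₀.ρ).2
      (GalRep.span_range_eq_top_of_isAbsolutelyIrreducible ρ₀ h₀))
  have htr : ∀ g, (a g).trace = (c g).trace := fun g => by
    have hc : (c g).charpoly = (a g).charpoly := by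
      show ((GalRep.matrixHom b ρ.ρ g).map (algebraMap k K)).charpoly =
        ((GalRep.matrixHom b₀ ρ₀.ρ g).map ψ).charpoly
      rw [Matrix.charpoly_map, Matrix.charpoly_map, GalRep.matrixHom_apply, GalRep.matrixHom_apply]
      show ((LinearMap.toMatrix b b) (ρ.ρ g)).charpoly.map _ =
        ((LinearMap.toMatrix b₀ b₀) (ρ₀.ρ g)).charpoly.map _
      rw [LinearMap.charpoly_toMatrix, LinearMap.charpoly_toMatrix, h g, Polynomial.map_map]
    rw [Matrix.trace_eq_neg_charpoly_coeff, Matrix.trace_eq_neg_charpoly_coeff, hc]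
  obtain ⟨P, hP, hPg⟩ := GalRep.exists_conj_of_trace_eq a c ha htr
  have hc : Submodule.span K (Set.range c) = ⊤ := by
    obtain ⟨P, rfl⟩ := hP
    refine eq_top_iff.2 fun N _ => ?_
    have key : ∀ M ∈ Submodule.span K (Set.range a),
        (P : Matrix (Fin 2) (Fin 2) K) * M * (↑P⁻¹ : Matrix (Fin 2) (Fin 2) K) ∈
          Submodule.span K (Set.range c) := fun M hM => by
      induction hM using Submodule.span_induction with
      | mem M hM =>
        obtain ⟨g, rfl⟩ := hM
        rw [hPg g, mul_assoc, Units.mul_inv, mul_one]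
        exact Submodule.subset_span ⟨g, rfl⟩
      | zero => simp
      | add M N _ _ hM hN => rw [mul_add, add_mul]; exact Submodule.add_mem _ hM hN
      | smul r M _ hM => rw [mul_smul_comm, smul_mul_assoc]; exact Submodule.smul_mem _ r hM
    have := key ((↑P⁻¹ : Matrix (Fin 2) (Fin 2) K) * N * P) (ha ▸ Submodule.mem_top)
    simpa [← mul_assoc] using this
  refine isIrreducible_of_span_eq_top _ ((GalRep.span_range_matrixHom (b.baseChange K) _).1 ?_)
  rw [← hc]
  congr 2
  funext g
  exact GalRep.matrixHom_baseChange b ρ.ρ _ (fun _ => rfl) g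

theorem det_eq_of_charpoly_map {k₀ k : Type} [Field k₀] [Field k] {V₀ V : Type} [AddCommGroup V₀]
    [Module k₀ V₀] [Module.Finite k₀ V₀] [AddCommGroup V] [Module k V] [Module.Finite k V]
    (h₀ : Module.finrank k₀ V₀ = 2) (hV : Module.finrank k V = 2) (φ : k₀ →+* k)
    {f₀ : Module.End k₀ V₀} {f : Module.End k V} (h : f.charpoly = f₀.charpoly.map φ) :
    LinearMap.det f = φ (LinearMap.det f₀) := by
  rw [LinearMap.det_eq_sign_charpoly_coeff, LinearMap.det_eq_sign_charpoly_coeff, h, hV, h₀,
    Polynomial.coeff_map]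
  simp

variable (E : WeierstrassCurve ℤ) {p : ℕ} [Fact p.Prime]
  (hΔ : (E.map (Int.castRingHom ℚ)).Δ ≠ 0)

/-- The residual representation on `E[p]`. -/
def torsionRep : ResidualGaloisRep (ZMod p) :=
  (E.map (Int.castRingHom ℚ)).residualGaloisRepOf p
    (Local.card_torsion_qbar _ hΔ (Fact.out : p.Prime).ne_zero)
    (Local.galoisRep_factorsThroughFiniteLevel _ hΔ (Fact.out : p.Prime).ne_zero)

/-- The characteristic polynomials of `E[p]` are reductions of those of the Tate module. -/
theorem charpoly_torsionRep (σ : GQ) :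
    ((torsionRep E (p := p) hΔ).ρ σ).charpoly =
      (GalRep.Tate.tateMatHom (p := p) hΔ σ).charpoly.map
        ((ZMod.castHom (pow_one p).symm.dvd (ZMod p)).comp (PadicInt.toZModPow 1)) := by
  have : Finite (Submodule.torsionBy ℤ
      ((E.map (Int.castRingHom ℚ))⁄Qb).Point (p : ℤ)) :=
    Local.finite_torsion_qbar _ hΔ (Fact.out : p.Prime).ne_zero
  rw [← Polynomial.map_map, ← Matrix.charpoly_map]
  have e : (GalRep.Tate.tateMatHom (p := p) hΔ σ).map (PadicInt.toZModPow 1) =
      GalRep.Tate.levelMat (p := p) hΔ 1 σ := GalRep.Tate.tateMatHom_toZModPow hΔ 1 σ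
  rw [e, GalRep.Tate.charpoly_levelMat_one hΔ σ p (pow_one p)]
  rfl

theorem torsionRep_isOdd (hp2 : p ≠ 2) (hirr : E.ModRepIsIrreducible p) :
    (torsionRep E (p := p) hΔ).IsOdd := by
  intro c hc hc1
  have hcyc := cycChar_involution p hp2 hc hc1
  have hdet := GalRep.Tate.det_eq_cycChar E hΔ (GalRep.Tate.hasNonscalar_of_irreducible E hΔ hirr) c
  rw [hcyc] at hdet
  have h : ((torsionRep E (p := p) hΔ).ρ c).charpoly.coeff 0 =
      ((ZMod.castHom (pow_one p).symm.dvd (ZMod p)).comp (PadicInt.toZModPow 1))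
        ((GalRep.Tate.tateMatHom (p := p) hΔ c).charpoly.coeff 0) := by
    rw [charpoly_torsionRep, Polynomial.coeff_map]
  rw [Matrix.det_eq_sign_charpoly_coeff, Fintype.card_fin] at hdet
  rw [LinearMap.det_eq_sign_charpoly_coeff, (torsionRep E hΔ).finrank_eq, h]
  simp only [neg_one_sq, one_mul] at hdet ⊢
  rw [hdet, map_neg, map_one]

theorem torsionRep_isAbsolutelyIrreducible (hp2 : p ≠ 2) (hirr : E.ModRepIsIrreducible p) :
    (torsionRep E (p := p) hΔ).IsAbsolutelyIrreducible := by
  refine GalRep.residual_isAbsolutelyIrreducible_of_isOdd _ (fun W hW => hirr.2 W hW)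
    (torsionRep_isOdd E hΔ hp2 hirr) ?_
  intro h2
  rw [show (2 : ZMod p) = ((2 : ℕ) : ZMod p) from rfl, ZMod.natCast_eq_zero_iff] at h2
  exact hp2 ((Nat.prime_dvd_prime_iff_eq Fact.out Nat.prime_two).1 h2)

end FermatAgent.Conductor
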