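import Fermat.Agent.Conductor.Residual
import Fermat.Agent.GalRep.Construct.Algebra
import Fermat.Agent.GalRep.Density.Charpoly

/-!
# Comparing a representation with the Tate module of a curve
-/

set_option autoImplicit false

open scoped WeierstrassCurve.Affine TensorProduct
open Polynomial

noncomputable section

namespace FermatAgent.Conductor

local notation "Qb" => AlgebraicClosure ℚ
local notation "GQ" => AlgebraicClosure ℚ ≃ₐ[ℚ] AlgebraicClosure ℚ

theorem isLocalHom_padicToRing {l : ℕ} [Fact l.Prime] {R : Type} [CommRing R] [IsLocalRing R]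
    [IsAdicComplete (IsLocalRing.maximalIdeal R) R] (hl : (l : R) ∈ IsLocalRing.maximalIdeal R) :
    IsLocalHom (GalRep.padicToRing hl) := by
  refine ⟨fun x hx => ?_⟩
  by_contra hnu
  rw [← mem_nonunits_iff, ← IsLocalRing.mem_maximalIdeal, PadicInt.maximalIdeal_eq_span_p,
    Ideal.mem_span_singleton] at hnu
  have := GalRep.padicToRing_mem_pow hl (x := x) (n := 1) (by rw [pow_one]; exact hnu)
  rw [pow_one, IsLocalRing.mem_maximalIdeal] at this
  exact this hx

/-- Ring homomorphisms from `ℤ_p` to a field where `p = 0` agree. -/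
theorem padicHom_ext {p : ℕ} [Fact p.Prime] {k : Type} [Field k] (hk : (p : k) = 0)
    (f g : ℤ_[p] →+* k) : f = g := by
  refine RingHom.ext fun x => ?_
  obtain ⟨y, hy⟩ : (p : ℤ_[p]) ∣ x - (x.appr 1 : ℕ) := by
    have := PadicInt.appr_spec 1 x
    rwa [pow_one, Ideal.mem_span_singleton] at this
  rw [eq_add_of_sub_eq hy]
  simp [hk]

theorem charpoly_baseChangeAlong {A B : Type} [CommRing A] [IsLocalRing A] [CommRing B]
    [IsLocalRing B] (φ : A →+* B) (hφ : IsLocalHom φ) (ρ : GaloisRepAdic A) (σ : GQ) :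
    ((ρ.baseChangeAlong φ hφ).ρ σ).charpoly = (ρ.ρ σ).charpoly.map φ := by
  let : Algebra A B := φ.toAlgebra
  show ((ρ.ρ σ).baseChange B).charpoly = _
  rw [LinearMap.charpoly_baseChange]
  rfl

theorem charpoly_residual_eq {A : Type} [CommRing A] [IsLocalRing A] (ρ : GaloisRepAdic A)
    (σ : GQ) : (ρ.residual.ρ σ).charpoly = (ρ.ρ σ).charpoly.map (IsLocalRing.residue A) := by
  show ((ρ.ρ σ).baseChange (IsLocalRing.ResidueField A)).charpoly = _
  rw [LinearMap.charpoly_baseChange]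
  rfl

variable (E : WeierstrassCurve ℤ) {l : ℕ} [Fact l.Prime]
  (hΔ : (E.map (Int.castRingHom ℚ)).Δ ≠ 0) {R : Type} [CommRing R] [IsLocalRing R]
  [IsAdicComplete (IsLocalRing.maximalIdeal R) R] (hl : (l : R) ∈ IsLocalRing.maximalIdeal R)

/-- The polynomial of Frobenius at a good prime, over any coefficient ring. -/
theorem map_charpoly_tate_frobenius (h : GalRep.Tate.HasNonscalar E hΔ l) {q : ℕ} (hq : q.Prime)
    (hgood : ¬ (q : ℤ) ∣ E.Δ) (hql : q ≠ l) {A : ValuationSubring Qb} (hA : A.LiesOverPrime q)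
    {σ : GQ} (hσ : A.IsFrobeniusAt σ q) :
    (GalRep.Tate.tateMatHom (p := l) hΔ σ).charpoly.map (GalRep.padicToRing hl) =
      X ^ 2 - C ((E.apOfModel q : ℤ) : R) * X + C ((q : R)) := by
  obtain ⟨ht, hd⟩ := GalRep.Tate.trace_det_frobenius E hΔ h hq hgood hql hA hσ
  rw [Matrix.charpoly_fin_two, ht, hd]
  simp

/-- A representation with the Frobenius polynomials of the curve at almost all primes has its
characteristic polynomials everywhere. -/
theorem charpoly_eq_tate (h : GalRep.Tate.HasNonscalar E hΔ l) (ρ : GaloisRepAdic R) {S : Set ℕ}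
    (hS : S.Finite) (hlS : l ∈ S)
    (hρ : ∀ ℓ : ℕ, ℓ.Prime → ℓ ∉ S → ∀ A : ValuationSubring Qb, A.LiesOverPrime ℓ →
      ∀ τ : GQ, A.IsFrobeniusAt τ ℓ → ¬ (ℓ : ℤ) ∣ E.Δ ∧
        (ρ.ρ τ).charpoly = X ^ 2 - C ((E.apOfModel ℓ : ℤ) : R) * X + C ((ℓ : R))) (σ : GQ) :
    (ρ.ρ σ).charpoly =
      (GalRep.Tate.tateMatHom (p := l) hΔ σ).charpoly.map (GalRep.padicToRing hl) := by
  have := GalRep.adic_charpoly_eq_of_frobenius ρ
    ((GalRep.Tate.tateRep l hΔ).baseChangeAlong _ (isLocalHom_padicToRing hl)) hS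
    (fun ℓ hℓ hℓS A hA τ hτ => by
      obtain ⟨hgood, hτp⟩ := hρ ℓ hℓ hℓS A hA τ hτ
      rw [hτp, charpoly_baseChangeAlong, GalRep.Tate.charpoly_tateRep,
        map_charpoly_tate_frobenius E hΔ hl h hℓ hgood (fun e => hℓS (e ▸ hlS)) hA hτ]) σ
  rw [this, charpoly_baseChangeAlong, GalRep.Tate.charpoly_tateRep]

theorem linear_coeff_eq {R : Type*} [CommRing R] {a b c d : R}
    (h : X ^ 2 - C a * X + C b = X ^ 2 - C c * X + C d) : a = c := by
  have := congrArg (fun P : R[X] => P.coeff 1) h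
  simpa [coeff_X_pow, coeff_C] using this

theorem linear_coeff_eq_neg {R : Type*} [CommRing R] {a b c d : R}
    (h : X ^ 2 - C a * X + C b = X ^ 2 + C c * X + C d) : a = -c := by
  refine linear_coeff_eq (b := b) (d := d) ?_
  rw [h, map_neg]
  ring

end FermatAgent.Conductor
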