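import Mathlib
import Fermat.Prelude.Def_CuspForm_HeckeAlgebra
import Fermat.Agent.DSLift.QExp
import Fermat.Agent.S23

/-!
# Embedding Hecke eigenvalue rings into complete discrete valuation rings
-/

set_option autoImplicit false

noncomputable section

open IsLocalRing

namespace FermatAgent.Conductor

section CompleteLocal

variable {B : Type} [CommRing B] [IsLocalRing B]

/-- A separated local ring whose maximal ideal is generated by a non-nilpotent element is a DVR. -/
theorem isDomain_and_dvr_of_maximalIdeal_eq_span [IsHausdorff (maximalIdeal B) B] {ϖ : B}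
    (hspan : maximalIdeal B = Ideal.span {ϖ}) (hnil : ∀ n : ℕ, ϖ ^ n ≠ 0) :
    ∃ _ : IsDomain B, IsDiscreteValuationRing B := by
  have hfac : ∀ x : B, x ≠ 0 → ∃ (n : ℕ) (u : Bˣ), x = ϖ ^ n * u := by
    intro x hx
    obtain ⟨n, hn⟩ : ∃ n, x ∉ Ideal.span {ϖ ^ (n + 1)} := by
      by_contra h
      push Not at h
      refine hx (IsHausdorff.haus' (I := maximalIdeal B) x fun n => ?_)
      rw [SModEq.zero, smul_eq_mul, Ideal.mul_top, hspan, Ideal.span_singleton_pow]
      exact Ideal.span_singleton_le_span_singleton.2 (pow_dvd_pow ϖ n.le_succ) (h n)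
    induction n using Nat.strong_induction_on with
    | _ n ih =>
      rcases n with _ | n
      · rw [zero_add, pow_one, ← hspan] at hn
        obtain ⟨u, hu⟩ := IsLocalRing.notMem_maximalIdeal.1 hn
        exact ⟨0, u, by rw [pow_zero, one_mul, hu]⟩
      · by_cases h : x ∈ Ideal.span {ϖ ^ (n + 1)}
        · obtain ⟨y, rfl⟩ := Ideal.mem_span_singleton.1 h
          have hy : y ∉ maximalIdeal B := by
            rw [hspan]
            intro hy
            obtain ⟨z, rfl⟩ := Ideal.mem_span_singleton.1 hy
            exact hn (Ideal.mem_span_singleton.2 ⟨z, by ring⟩)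
          obtain ⟨u, hu⟩ := IsLocalRing.notMem_maximalIdeal.1 hy
          exact ⟨n + 1, u, by rw [hu]⟩
        · exact ih n (Nat.lt_succ_self n) h
  have hdom : IsDomain B := by
    have : NoZeroDivisors B := ⟨fun {a b} hab => by
      by_contra hne
      obtain ⟨ha, hb⟩ := not_or.1 hne
      obtain ⟨i, u, rfl⟩ := hfac a ha
      obtain ⟨j, v, rfl⟩ := hfac b hb
      rw [mul_mul_mul_comm, ← pow_add, ← Units.val_mul, Units.mul_left_eq_zero] at hab
      exact hnil _ hab⟩
    exact NoZeroDivisors.to_isDomain B
  refine ⟨hdom, IsDiscreteValuationRing.ofHasUnitMulPowIrreducibleFactorization ⟨ϖ, ?_, ?_⟩⟩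
  · have hnu : ¬ IsUnit ϖ := by
      rw [← mem_nonunits_iff, ← IsLocalRing.mem_maximalIdeal, hspan]
      exact Ideal.mem_span_singleton_self ϖ
    refine ⟨hnu, fun a b hab => ?_⟩
    by_contra hne
    obtain ⟨ha, hb⟩ := not_or.1 hne
    rw [← mem_nonunits_iff, ← IsLocalRing.mem_maximalIdeal, hspan, Ideal.mem_span_singleton]
      at ha hb
    obtain ⟨a, rfl⟩ := ha
    obtain ⟨b, rfl⟩ := hb
    have h0 : ϖ * (1 - ϖ * (a * b)) = 0 := by linear_combination hab
    rcases mul_eq_zero.1 h0 with h | h
    · exact hnil 1 (by rw [pow_one, h])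
    · exact hnu (IsUnit.of_mul_eq_one _ (sub_eq_zero.1 h).symm)
  · intro x hx
    obtain ⟨n, u, rfl⟩ := hfac x hx
    exact ⟨n, ⟨u, rfl⟩⟩

end CompleteLocal

/-- The completion of a number field at a prime above `lam`, as an abstract complete DVR. -/
theorem exists_completion_numberField (K : Type) [Field K] [NumberField K] (lam : ℕ)
    [Fact lam.Prime] :
    ∃ (O' : Type) (_ : CommRing O') (_ : IsDomain O') (_ : IsDiscreteValuationRing O')
      (_ : IsAdicComplete (maximalIdeal O') O') (_ : Finite (ResidueField O'))
      (_ : CharZero O'), (lam : O') ∈ maximalIdeal O' ∧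
      ∃ ι : NumberField.RingOfIntegers K →+* O', Function.Injective ι := by
  have hl : lam.Prime := Fact.out
  have : (Ideal.span {(lam : ℤ)}).IsMaximal :=
    PrincipalIdealRing.isMaximal_of_irreducible (Nat.prime_iff_prime_int.1 hl).irreducible
  obtain ⟨v, hv, hover⟩ := Ideal.exists_maximal_ideal_liesOver_of_isIntegral
    (S := NumberField.RingOfIntegers K) (Ideal.span {(lam : ℤ)})
  have hmem : (lam : NumberField.RingOfIntegers K) ∈ v := by
    have h1 : (lam : ℤ) ∈ v.under ℤ := by
      rw [← hover.over]; exact Ideal.mem_span_singleton_self _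
    simpa [Ideal.mem_comap] using h1
  have hv0 : v ≠ ⊥ := by
    intro h
    rw [h, Ideal.mem_bot] at hmem
    exact hl.ne_zero (by exact_mod_cast hmem)
  let A := Localization.AtPrime v
  have : IsDiscreteValuationRing A :=
    IsLocalization.AtPrime.isDiscreteValuationRing_of_dedekind_domain _ hv0 A
  let B := AdicCompletion (maximalIdeal A) A
  obtain ⟨ϖ, hϖ⟩ := IsDiscreteValuationRing.exists_irreducible A
  have hA : IsHausdorff (maximalIdeal A) A :=
    IsHausdorff.of_le_jacobson _ _ (by rw [IsLocalRing.jacobson_eq_maximalIdeal ⊥ bot_ne_top])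
  have hinj : Function.Injective (algebraMap A B) := fun a b h =>
    AdicCompletion.of_injective (maximalIdeal A) A (by
      simpa [B, AdicCompletion.algebraMap_apply] using h)
  have hspan : maximalIdeal B = Ideal.span {algebraMap A B ϖ} := by
    rw [AdicCompletion.maximalIdeal_eq_map, ← Set.image_singleton, ← Ideal.map_span]
    exact congrArg (Ideal.map _) hϖ.maximalIdeal_eq
  obtain ⟨hdom, hdvr⟩ := isDomain_and_dvr_of_maximalIdeal_eq_span hspan fun n h => by
    rw [← map_pow, ← map_zero (algebraMap A B)] at h
    exact pow_ne_zero n hϖ.ne_zero (hinj h)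
  have hfinA : Finite (ResidueField A) := by
    have : Finite (NumberField.RingOfIntegers K ⧸ v) := Ideal.finiteQuotientOfFreeOfNeBot v hv0
    exact Finite.of_equiv _ (IsLocalization.AtPrime.equivQuotMaximalIdeal v A).toEquiv
  have hfinB : Finite (ResidueField B) :=
    Finite.of_surjective _ (AdicCompletion.residueField_map_bijective A).2
  have hinjA : Function.Injective (algebraMap (NumberField.RingOfIntegers K) A) :=
    IsLocalization.injective A v.primeCompl_le_nonZeroDivisors
  have hcz : CharZero B :=
    charZero_of_injective_ringHom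
      (f := (algebraMap A B).comp (algebraMap (NumberField.RingOfIntegers K) A)) (hinj.comp hinjA)
  refine ⟨B, inferInstance, hdom, hdvr, inferInstance, hfinB, hcz, ?_,
    (algebraMap A B).comp (algebraMap _ A), hinj.comp hinjA⟩
  have h2 : (lam : A) ∈ maximalIdeal A := by
    rw [← Localization.AtPrime.map_eq_maximalIdeal]
    simpa using Ideal.mem_map_of_mem (algebraMap (NumberField.RingOfIntegers K) A) hmem
  rw [AdicCompletion.maximalIdeal_eq_map]
  simpa using Ideal.mem_map_of_mem (algebraMap A B) h2

/-- A domain finite over `ℤ` embeds into a complete DVR with finite residue field at any prime. -/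
theorem exists_embedding_dvr_aux (R : Type) [CommRing R] [IsDomain R] [CharZero R]
    [Module.Finite ℤ R] (K : Type) [Field K] [Algebra R K] [IsFractionRing R K] (lam : ℕ)
    [Fact lam.Prime] :
    ∃ (O' : Type) (_ : CommRing O') (_ : IsDomain O') (_ : IsDiscreteValuationRing O')
      (_ : IsAdicComplete (maximalIdeal O') O') (_ : Finite (ResidueField O'))
      (_ : CharZero O'), (lam : O') ∈ maximalIdeal O' ∧
      ∃ ι : R →+* O', Function.Injective ι := by
  have : CharZero K := charZero_of_injective_ringHom (f := algebraMap R K) (IsFractionRing.injective R K)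
  have hint : ∀ r : R, IsIntegral ℤ (algebraMap R K r) := fun r =>
    (IsIntegral.of_finite ℤ r).map (algebraMap R K).toIntAlgHom
  obtain ⟨s, hs⟩ := Module.Finite.fg_top (R := ℤ) (M := R)
  let E := IntermediateField.adjoin ℚ (algebraMap R K '' (s : Set R))
  have : FiniteDimensional ℚ E :=
    IntermediateField.finiteDimensional_adjoin fun x hx => by
      obtain ⟨r, -, rfl⟩ := hx
      exact (hint r).tower_top
  have hE : ∀ r : R, algebraMap R K r ∈ E := by
    intro r
    have hr : r ∈ Submodule.span ℤ (s : Set R) := hs ▸ Submodule.mem_top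
    induction hr using Submodule.span_induction with
    | mem x hx => exact IntermediateField.subset_adjoin _ _ ⟨x, hx, rfl⟩
    | zero => rw [map_zero]; exact zero_mem E
    | add x y _ _ hx hy => rw [map_add]; exact add_mem hx hy
    | smul c x _ hx => rw [map_zsmul]; exact zsmul_mem hx c
  have hEtop : E = ⊤ := by
    refine eq_top_iff.2 fun z _ => ?_
    obtain ⟨a, b, -, rfl⟩ := IsFractionRing.div_surjective (A := R) z
    exact div_mem (hE a) (hE b)
  have : FiniteDimensional ℚ K :=
    LinearEquiv.finiteDimensional
      ((IntermediateField.equivOfEq hEtop).trans IntermediateField.topEquiv).toLinearEquiv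
  have : NumberField K := ⟨⟩
  obtain ⟨O', i1, i2, i3, i4, i5, i6, h, ι, hι⟩ := exists_completion_numberField K lam
  let φ : R →+* NumberField.RingOfIntegers K :=
    { toFun := fun r => ⟨algebraMap R K r, hint r⟩
      map_one' := Subtype.ext (map_one _)
      map_mul' := fun x y => Subtype.ext (map_mul _ x y)
      map_zero' := Subtype.ext (map_zero _)
      map_add' := fun x y => Subtype.ext (map_add _ x y) }
  exact ⟨O', i1, i2, i3, i4, i5, i6, h, ι.comp φ, hι.comp fun x y hxy =>
    IsFractionRing.injective R K (congrArg Subtype.val hxy)⟩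

theorem exists_embedding_dvr (R : Type) [CommRing R] [IsDomain R] [CharZero R] [Module.Finite ℤ R]
    (lam : ℕ) [Fact lam.Prime] :
    ∃ (O' : Type) (_ : CommRing O') (_ : IsDomain O') (_ : IsDiscreteValuationRing O')
      (_ : IsAdicComplete (maximalIdeal O') O') (_ : Finite (ResidueField O'))
      (_ : CharZero O'), (lam : O') ∈ maximalIdeal O' ∧
      ∃ ι : R →+* O', Function.Injective ι :=
  exists_embedding_dvr_aux R (FractionRing R) lam

variable {N : ℕ} [NeZero N]

/-- The eigenvalue ring of a Hecke character is finite over `ℤ`. -/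
theorem finite_range_hecke {S : Set ℕ} (χ : CuspForm.heckeAlgebra N 2 S →+* ℂ) :
    Module.Finite ℤ χ.range := by
  have := DSLift.heckeAlgebra_finite (by norm_num) (Fermat.Agent.S23.result N) S
  exact Module.Finite.of_surjective χ.rangeRestrict.toAddMonoidHom.toIntLinearMap
    χ.rangeRestrict_surjective

/-- Eigenvalue rings of Hecke characters embed into complete DVRs at every prime `lam`. -/
theorem exists_iota {S : Set ℕ} (χ : CuspForm.heckeAlgebra N 2 S →+* ℂ) (lam : ℕ)
    [Fact lam.Prime] :
    ∃ (O' : Type) (_ : CommRing O') (_ : IsDomain O') (_ : IsDiscreteValuationRing O')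
      (_ : IsAdicComplete (maximalIdeal O') O') (_ : Finite (ResidueField O'))
      (_ : CharZero O'), (lam : O') ∈ maximalIdeal O' ∧
      ∃ ι : χ.range →+* O', Function.Injective ι :=
  have := finite_range_hecke χ
  exists_embedding_dvr χ.range lam

end FermatAgent.Conductor
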