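import Fermat.Agent.DSLift.Eigenform
import Fermat.Prelude.Def_FLTPrelim_ModularRep
import Mathlib.NumberTheory.ModularForms.Bounds

/-!
# `|a_p| < p + 1` for normalized eigenforms of weight two

`y |f|` attains its maximum on the upper half plane; at a maximum the Hecke relation gives the
non-strict bound, and equality would propagate the maximum towards the cusp.
-/

set_option autoImplicit false

noncomputable section

open CongruenceSubgroup Filter Topology UpperHalfPlane ModularFormClass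
open scoped MatrixGroups Modular ModularForm

namespace FermatAgent.Conductor

variable {N : ℕ} [NeZero N]

/-- `(y |f|)²`. -/
def pet (f : CuspForm (Gamma0 N) 2) (τ : ℍ) : ℝ := ‖petersson 2 ⇑f ⇑f τ‖

omit [NeZero N] in
theorem pet_eq (f : CuspForm (Gamma0 N) 2) (τ : ℍ) : pet f τ = (‖f τ‖ * τ.im) ^ 2 := by
  simp only [pet, petersson, norm_mul, Complex.norm_conj, zpow_ofNat, norm_pow, Complex.norm_real,
    Real.norm_of_nonneg τ.im_pos.le]
  ring

omit [NeZero N] in
theorem pet_continuous (f : CuspForm (Gamma0 N) 2) : Continuous (pet f) := by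
  unfold pet; fun_prop

open ConjAct Pointwise Matrix.SpecialLinearGroup in
theorem pet_translate_tendsto (f : CuspForm (Gamma0 N) 2) (g : SL(2, ℤ)) :
    Tendsto (fun τ => pet f (g • τ)) atImInfty (𝓝 0) := by
  simp_rw [pet, ← UpperHalfPlane.petersson_slash_SL]
  refine tendsto_zero_iff_norm_tendsto_zero.1 ?_
  have : ((toConjAct (g : GL (Fin 2) ℝ)⁻¹) •
      (Gamma0 N : Subgroup (GL (Fin 2) ℝ))).IsArithmetic := by
    simpa [(show Rat.castHom ℝ = algebraMap ℚ ℝ by rfl), map_inv, map_mapGL]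
      using! Subgroup.IsArithmetic.conj (Gamma0 N : Subgroup (GL (Fin 2) ℝ)) (mapGL ℚ g)⁻¹
  exact (CuspFormClass.zero_at_infty <| CuspForm.translate f g).petersson_isZeroAtImInfty_left 2 _
    (ModularForm.translate f g)

theorem pet_gamma0_smul (f : CuspForm (Gamma0 N) 2) {γ : SL(2, ℤ)} (hγ : γ ∈ Gamma0 N) (τ : ℍ) :
    pet f (γ • τ) = pet f τ := by
  simp only [pet]
  exact SlashInvariantFormClass.norm_petersson_smul (Γ := (Gamma0 N : Subgroup (GL (Fin 2) ℝ)))
    ⟨γ, hγ, rfl⟩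

theorem exists_max_pet {f : CuspForm (Gamma0 N) 2} (hf : f ≠ 0) :
    ∃ τ₀ : ℍ, 0 < pet f τ₀ ∧ ∀ τ, pet f τ ≤ pet f τ₀ := by
  classical
  have : Fintype (SL(2, ℤ) ⧸ Gamma0 N) := Subgroup.fintypeQuotientOfFiniteIndex
  obtain ⟨τ₁, hτ₁⟩ : ∃ τ : ℍ, f τ ≠ 0 := by
    by_contra h
    push Not at h
    exact hf (DFunLike.ext _ _ h)
  have hpos : 0 < pet f τ₁ := by
    rw [pet_eq]; exact pow_pos (mul_pos (norm_pos_iff.2 hτ₁) τ₁.im_pos) 2
  set r : SL(2, ℤ) ⧸ Gamma0 N → SL(2, ℤ) := fun c => c.out⁻¹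
  have hev : ∀ᶠ τ in atImInfty, ∀ c, pet f (r c • τ) < pet f τ₁ := by
    rw [eventually_all]
    exact fun c => (pet_translate_tendsto f (r c)).eventually (eventually_lt_nhds hpos)
  rw [atImInfty, eventually_comap, eventually_atTop] at hev
  obtain ⟨y, hy⟩ := hev
  set K : Set ℍ := insert τ₁ (⋃ c, (fun τ => r c • τ) '' ModularGroup.truncatedFundamentalDomain y)
  have hK : IsCompact K := (isCompact_iUnion fun c =>
    (ModularGroup.isCompact_truncatedFundamentalDomain y).image (by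
      exact continuous_const_smul (Matrix.SpecialLinearGroup.toGL (Matrix.SpecialLinearGroup.map (Int.castRingHom ℝ) (r c))))).insert τ₁
  obtain ⟨τ₀, hτ₀, hmax⟩ := hK.exists_isMaxOn ⟨τ₁, Or.inl rfl⟩ (pet_continuous f).continuousOn
  have h10 : pet f τ₁ ≤ pet f τ₀ := hmax (Or.inl rfl)
  refine ⟨τ₀, hpos.trans_le h10, fun τ => ?_⟩
  obtain ⟨g, hg⟩ := ModularGroup.exists_smul_mem_fd τ
  obtain ⟨γ, hγ⟩ := QuotientGroup.mk_out_eq_mul (Gamma0 N) g
  have e : pet f τ = pet f (r (g : SL(2, ℤ) ⧸ Gamma0 N) • g • τ) := by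
    show pet f τ = pet f ((g : SL(2, ℤ) ⧸ Gamma0 N).out⁻¹ • g • τ)
    rw [hγ, mul_inv_rev, mul_smul, inv_smul_smul, pet_gamma0_smul f (inv_mem γ.2)]
  rw [e]
  rcases le_total (g • τ).im y with h | h
  · exact hmax (Or.inr (Set.mem_iUnion.2 ⟨_, Set.mem_image_of_mem _ ⟨hg, h⟩⟩))
  · exact ((hy _ h _ rfl) _).le.trans h10

/-- The bound `|a_q| < q + 1` for a prime `q` not dividing the level. -/
theorem norm_qCoeff_lt {f : CuspForm (Gamma0 N) 2} (hf : f.IsNormalizedEigenform) {q : ℕ}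
    (hq : q.Prime) (hqN : ¬ q ∣ N) : ‖qCoeff ⇑f q‖ < q + 1 := by
  by_contra hge
  rw [not_lt] at hge
  obtain ⟨τ₀, hpos, hmax⟩ := exists_max_pet hf.ne_zero
  set G : ℍ → ℝ := fun τ => ‖f τ‖ * τ.im with hG
  have hGnn : ∀ τ, 0 ≤ G τ := fun τ => mul_nonneg (norm_nonneg _) τ.im_pos.le
  set S := G τ₀
  have hS : ∀ τ, G τ ≤ S := fun τ => by
    have := hmax τ
    rw [pet_eq, pet_eq] at this
    exact (pow_le_pow_iff_left₀ (hGnn τ) (hGnn τ₀) two_ne_zero).1 this
  have hS0 : 0 < S := by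
    rw [pet_eq] at hpos
    refine lt_of_le_of_ne (hGnn τ₀) fun h => ?_
    rw [show ‖f τ₀‖ * τ₀.im = 0 from h.symm] at hpos
    simp at hpos
  have hq0 : (0 : ℝ) < q := Nat.cast_pos.2 hq.pos
  have hstep : ∀ τ, G τ = S → G (ModularForm.heckeDiagMatrix q • τ) = S := by
    intro τ hτ
    refine le_antisymm (hS _) ?_
    have h := congrArg (fun F : CuspForm (Gamma0 N) 2 => F τ)
      ((DSLift.isPrimeEigen_of_isNormalizedEigenform hf).1 q hq hqN)
    simp only [CuspForm.coe_heckeTLin_apply, FunLike.coe_smul, Pi.smul_apply,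
      smul_eq_mul] at h
    rw [ModularForm.heckeT_apply 2 hq.ne_zero] at h
    have hn : ‖qCoeff ⇑f q‖ * ‖f τ‖ ≤
        (q : ℝ)⁻¹ * ∑ j ∈ Finset.range q, ‖f (ModularForm.heckeMatrix q j • τ)‖ +
          q * ‖f (ModularForm.heckeDiagMatrix q • τ)‖ := by
      rw [← norm_mul, ← h]
      refine (norm_add_le _ _).trans (add_le_add ?_ ?_)
      · rw [norm_mul, norm_inv, Complex.norm_natCast]
        exact mul_le_mul_of_nonneg_left (norm_sum_le _ _) (by positivity)
      · simp
    have him1 : ∀ j, (ModularForm.heckeMatrix q j • τ).im = τ.im / q := fun j => by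
      rw [← UpperHalfPlane.coe_im, ModularForm.coe_heckeMatrix_smul hq.ne_zero]
      simp [Complex.div_natCast_im]
    have him2 : (ModularForm.heckeDiagMatrix q • τ).im = q * τ.im := by
      rw [← UpperHalfPlane.coe_im, ModularForm.coe_heckeDiagMatrix_smul hq.ne_zero]
      simp
    have h2 : ‖qCoeff ⇑f q‖ * S ≤
        (∑ j ∈ Finset.range q, G (ModularForm.heckeMatrix q j • τ)) +
          G (ModularForm.heckeDiagMatrix q • τ) := by
      rw [← hτ]
      calc ‖qCoeff ⇑f q‖ * G τ = (‖qCoeff ⇑f q‖ * ‖f τ‖) * τ.im := by rw [hG]; ring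
        _ ≤ ((q : ℝ)⁻¹ * ∑ j ∈ Finset.range q, ‖f (ModularForm.heckeMatrix q j • τ)‖ +
            q * ‖f (ModularForm.heckeDiagMatrix q • τ)‖) * τ.im :=
          mul_le_mul_of_nonneg_right hn τ.im_pos.le
        _ = _ := by
          simp only [hG, him1, him2, ← Finset.sum_mul]
          field_simp
    have h3 : (∑ j ∈ Finset.range q, G (ModularForm.heckeMatrix q j • τ)) ≤ q * S := by
      refine (Finset.sum_le_sum fun j _ => hS _).trans ?_
      simp
    nlinarith [mul_le_mul_of_nonneg_right hge hS0.le]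
  set seq : ℕ → ℍ := fun n => (fun τ => ModularForm.heckeDiagMatrix q • τ)^[n] τ₀
  have hseq : ∀ n, G (seq n) = S ∧ (seq n).im = (q : ℝ) ^ n * τ₀.im := by
    intro n
    induction n with
    | zero => simp [seq, S]
    | succ n ih =>
      simp only [seq, Function.iterate_succ_apply'] at ih ⊢
      refine ⟨hstep _ ih.1, ?_⟩
      rw [← UpperHalfPlane.coe_im, ModularForm.coe_heckeDiagMatrix_smul hq.ne_zero]
      simp only [Complex.mul_im, Complex.natCast_re, Complex.natCast_im, zero_mul, add_zero,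
        UpperHalfPlane.coe_im, ih.2]
      ring
  have hlim : Tendsto seq atTop atImInfty := by
    rw [atImInfty, tendsto_comap_iff]
    refine Tendsto.congr (fun n => ((hseq n).2).symm) ?_
    exact (tendsto_pow_atTop_atTop_of_one_lt (by exact_mod_cast hq.one_lt)).atTop_mul_const
      τ₀.im_pos
  have h0 := (pet_translate_tendsto f 1).comp hlim
  have hconst : (fun τ => pet f ((1 : SL(2, ℤ)) • τ)) ∘ seq = fun _ => S ^ 2 := by
    funext n
    simp only [Function.comp_apply, one_smul, pet_eq]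
    exact congrArg (· ^ 2) (hseq n).1
  rw [hconst, tendsto_const_nhds_iff] at h0
  exact (pow_pos hS0 2).ne' h0

end FermatAgent.Conductor
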