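import Fermat.Prelude.Def_CuspForm_Newforms
import Fermat.Prelude.Def_CuspForm_HeckeAlgebra
import Fermat.Agent.DSLift.Eigenform

/-!
# The minimal level of an eigensystem, and integral eigenvalue rings
-/

set_option autoImplicit false

noncomputable section

open CongruenceSubgroup ModularFormClass

namespace FermatAgent.Conductor

/-- An eigenform has a newform of level dividing its level with the same good eigenvalues. -/
theorem exists_newform_of_eigenform {N : ℕ} (hN : N ≠ 0) {f : CuspForm (Gamma0 N) 2}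
    (hf : f.IsNormalizedEigenform) :
    ∃ M : ℕ, M ≠ 0 ∧ M ∣ N ∧ ∃ g : CuspForm (Gamma0 M) 2, g.IsNewform ∧
      ∀ ℓ : ℕ, ℓ.Prime → ¬ ℓ ∣ N → qCoeff g ℓ = qCoeff f ℓ := by
  classical
  have hex : ∃ M, M ∣ N ∧ CuspForm.GoodEigensystemOccursAt f M :=
    ⟨N, dvd_rfl, CuspForm.GoodEigensystemOccursAt.refl hf⟩
  obtain ⟨M, hM, hmin⟩ : ∃ M, (M ∣ N ∧ CuspForm.GoodEigensystemOccursAt f M) ∧
      ∀ m < M, ¬ (m ∣ N ∧ CuspForm.GoodEigensystemOccursAt f m) :=
    ⟨Nat.find hex, Nat.find_spec hex, fun m hm => Nat.find_min hex hm⟩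
  obtain ⟨hMN, g, hg, hga⟩ := hM
  have hM0 : M ≠ 0 := ne_zero_of_dvd_ne_zero hN hMN
  refine ⟨M, hM0, hMN, g, ⟨hg, fun M' hM'M hne hocc => ?_⟩, hga⟩
  obtain ⟨g', hg', hg'a⟩ := hocc
  refine hmin M' (lt_of_le_of_ne (Nat.le_of_dvd (Nat.pos_of_ne_zero hM0) hM'M) hne)
    ⟨hM'M.trans hMN, g', hg', fun ℓ hℓ hℓN => ?_⟩
  rw [hg'a ℓ hℓ fun h => hℓN (h.trans hMN), hga ℓ hℓ hℓN]

variable {M : ℕ} [NeZero M] {S : Set ℕ}

/-- If all generators have integral eigenvalues, the eigenvalue ring consists of integers. -/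
theorem range_le_int {χ : CuspForm.heckeAlgebra M 2 S →+* ℂ}
    (hMS : ∀ q : ℕ, q.Prime → q ∣ M → q ∈ S)
    (hT : ∀ (ℓ : ℕ) (hℓ : ℓ.Prime) (hℓM : ¬ ℓ ∣ M) (hℓS : ℓ ∉ S),
      ∃ n : ℤ, χ (CuspForm.heckeAlgebra.T hℓ hℓM hℓS) = n) :
    χ.range ≤ (Int.castRingHom ℂ).range := by
  rintro _ ⟨⟨t, ht⟩, rfl⟩
  induction ht using Algebra.adjoin_induction with
  | mem x hx =>
    rcases hx with ⟨p, hp, hpM, hpS, rfl⟩ | ⟨p, hpM, hp, hpS, rfl⟩
    · obtain ⟨n, hn⟩ := hT p hp hpM hpS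
      exact ⟨n, hn.symm⟩
    · exact absurd (hMS p hp hpM) hpS
  | algebraMap r => exact ⟨r, (eq_intCast (χ.comp (algebraMap ℤ _)) r).symm⟩
  | add x y hx hy ihx ihy =>
    change χ (⟨x, hx⟩ + ⟨y, hy⟩) ∈ _
    rw [map_add]
    exact add_mem ihx ihy
  | mul x y hx hy ihx ihy =>
    change χ (⟨x, hx⟩ * ⟨y, hy⟩) ∈ _
    rw [map_mul]
    exact mul_mem ihx ihy

/-- The map to any ring of an eigenvalue ring made of integers. -/
theorem exists_intHom {R : Type} [CommRing R] {T : Subring ℂ}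
    (hT : T ≤ (Int.castRingHom ℂ).range) :
    ∃ ι : T →+* R, ∀ (x : T) (n : ℤ), (x : ℂ) = n → ι x = n := by
  let e : ℤ ≃+* (Int.castRingHom ℂ).range :=
    RingEquiv.ofBijective (Int.castRingHom ℂ).rangeRestrict
      ⟨fun a b h => Int.cast_injective (congrArg Subtype.val h),
        (Int.castRingHom ℂ).rangeRestrict_surjective⟩
  refine ⟨(Int.castRingHom R).comp (e.symm.toRingHom.comp (Subring.inclusion hT)),
    fun x n hx => ?_⟩
  have : Subring.inclusion hT x = e n := Subtype.ext hx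
  simp [this]

end FermatAgent.Conductor
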