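import Fermat.Agent.Conductor.Inputs
import Fermat.Agent.Conductor.Compare
import Fermat.Agent.Conductor.Newform
import Fermat.Agent.Conductor.Embedding
import Fermat.Agent.Conductor.Bound
import Fermat.Prelude.Def_WeierstrassCurve_ConductorLevel

/-!
# A semistable modular curve is modular at its conductor level

The newform carrying the eigensystem of the curve has level `M` with: `q ∤ M` at good `q`
(`q ∥ M` would give `a_q = ± (q + 1)`, `q² ∥ M` would make inertia non-unipotent on the Tate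
module), and `q ∥ M` at bad `q` (`q ∤ M` would again give `a_q(g) = ± (q + 1)`).
-/

set_option autoImplicit false

open scoped WeierstrassCurve.Affine TensorProduct
open Polynomial ModularFormClass CongruenceSubgroup

noncomputable section

namespace FermatAgent.Conductor

open FermatAgent.GalRep

local notation "Qb" => AlgebraicClosure ℚ
local notation "GQ" => AlgebraicClosure ℚ ≃ₐ[ℚ] AlgebraicClosure ℚ

section Local

variable {W : WeierstrassCurve ℤ} (hΔ : (W.map (Int.castRingHom ℚ)).Δ ≠ 0) {N M : ℕ}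
  [NeZero M] (hN : N ≠ 0) {g : CuspForm (Gamma0 M) 2}
  (hga : ∀ ℓ : ℕ, ℓ.Prime → ¬ ℓ ∣ N → qCoeff g ℓ = (W.apOfModel ℓ : ℂ))
  (hbad : ∀ ℓ : ℕ, ℓ.Prime → (ℓ : ℤ) ∣ W.Δ → ℓ ∣ N)
  (hMN : M ∣ N)

include hΔ hN hga hbad hMN in
/-- At a prime away from the level the coefficient is read off the Tate modules. -/
theorem qCoeff_eq_of_trace (h30 : PointInput) (hg : g.IsNormalizedEigenform) {q : ℕ}
    (hq : q.Prime) (hqM : ¬ q ∣ M) (P : ℤ → Prop)
    (hn : ∀ (l : ℕ) [Fact l.Prime], l ≠ 2 → q ≠ l → Tate.HasNonscalar W hΔ l →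
      ∀ A : ValuationSubring Qb, A.LiesOverPrime q → ∀ σ : GQ, A.IsFrobeniusAt σ q →
        ∃ n : ℤ, P n ∧ (Tate.tateMatHom (p := l) hΔ σ).trace = n) :
    ∃ n : ℤ, P n ∧ qCoeff g q = n := by
  obtain ⟨l, hl, hlB, hl2, hns⟩ := Tate.exists_hasNonscalar W hΔ (N + q)
  have hql : q ≠ l := by omega
  set S : Finset ℕ := insert l (N.primeFactors.erase q)
  have hmemS : ∀ {ℓ : ℕ}, ℓ.Prime → ℓ ∣ N → ℓ ≠ q → ℓ ∈ S := fun hℓ h hne =>
    Finset.mem_insert_of_mem (Finset.mem_erase.2 ⟨hne, Nat.mem_primeFactors.2 ⟨hℓ, h, hN⟩⟩)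
  have hqS : q ∉ S := by simp [S, hql]
  have hlS : l ∈ S := Finset.mem_insert_self _ _
  have hMS : ∀ r : ℕ, r.Prime → r ∣ M → r ∈ S := fun r hr hrM =>
    hmemS hr (hrM.trans hMN) fun e => hqM (e ▸ hrM)
  obtain ⟨chig, -, hT, -⟩ := DSLift.exists_ringHom_of_isNormalizedEigenform hg (↑S : Set ℕ)
  obtain ⟨O', i1, i2, i3, i4, i5, i6, hlO, ι, hι⟩ := exists_iota chig l
  obtain ⟨O'', j1, j2, j3, j4, j5, j6, j7, j8, j9, hinj, ρ, hρ, -⟩ :=
    h30 l M S hlS hMS O' hlO (ι.comp chig.rangeRestrict)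
  set Φ : chig.range →+* O'' := (algebraMap O' O'').comp ι with hΦ
  have hl'' : (l : O'') ∈ IsLocalRing.maximalIdeal O'' := by
    rw [IsLocalRing.mem_maximalIdeal, mem_nonunits_iff] at hlO ⊢
    rw [← map_natCast (algebraMap O' O'') l]
    exact fun h => hlO (IsUnit.of_map _ _ h)
  have hint : ∀ (t : CuspForm.heckeAlgebra M 2 (↑S : Set ℕ)) (m : ℤ), chig t = (m : ℂ) →
      Φ (chig.rangeRestrict t) = m := fun t m h => by
    rw [show chig.rangeRestrict t = (m : chig.range) from Subtype.ext (by simpa using h),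
      map_intCast]
  have hall := charpoly_eq_tate W (R := O'') hΔ hl'' hns ρ (S := ↑S ∪ {q})
    (S.finite_toSet.union (Set.finite_singleton q)) (Or.inl hlS) fun ℓ hℓ hℓS A hA τ hτ => by
      rw [Set.mem_union, not_or, Set.mem_singleton_iff] at hℓS
      have hℓN : ¬ ℓ ∣ N := fun h => hℓS.1 (hmemS hℓ h hℓS.2)
      have hℓM : ¬ ℓ ∣ M := fun h => hℓN (h.trans hMN)
      refine ⟨fun h => hℓN (hbad ℓ hℓ h), ?_⟩
      rw [hρ ℓ hℓ hℓM hℓS.1 A hA τ hτ]
      congr 3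
      exact congrArg C (hint _ _ ((hT ℓ hℓ hℓM hℓS.1).trans (hga ℓ hℓ hℓN)))
  obtain ⟨A, σ, hA, hσ⟩ := RT.exists_place_isFrobeniusAt hq
  obtain ⟨n, hPn, htr⟩ := hn l hl2 hql hns A hA σ hσ
  have h := (hρ q hq hqM hqS A hA σ hσ).symm.trans (hall σ)
  rw [Matrix.charpoly_fin_two, Polynomial.map_add, Polynomial.map_sub, Polynomial.map_pow,
    Polynomial.map_mul, Polynomial.map_X, Polynomial.map_C, Polynomial.map_C, htr, map_intCast] at h
  have h1 : Φ (chig.rangeRestrict (CuspForm.heckeAlgebra.T hq hqM hqS)) = (n : O'') :=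
    linear_coeff_eq h
  rw [← map_intCast Φ] at h1
  have h2 := congrArg Subtype.val ((hinj.comp hι) h1)
  refine ⟨n, hPn, ?_⟩
  rw [RingHom.coe_rangeRestrict, hT q hq hqM hqS] at h2
  simpa using h2

include hΔ hN hga hbad hMN in
/-- A bad multiplicative prime divides the level. -/
theorem dvd_level_of_bad (h30 : PointInput) (hg : g.IsNormalizedEigenform)
    (hss : W.IsSemistableModel) {q : ℕ} (hq : q.Prime) (hqΔ : (q : ℤ) ∣ W.Δ) : q ∣ M := by
  by_contra hqM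
  obtain ⟨n, hn, hgq⟩ := qCoeff_eq_of_trace hΔ hN hga hbad hMN h30 hg hq hqM
    (fun n => n = (q : ℤ) + 1 ∨ n = -((q : ℤ) + 1)) fun l _ hl2 hql hns A hA σ hσ => by
      rcases (Tate.trace_det_frobenius_of_mult W hΔ hns hl2 hq hqΔ (hss q hq hqΔ) hql hA hσ).1
        with h | h
      · exact ⟨_, Or.inl rfl, by push_cast; exact h⟩
      · exact ⟨_, Or.inr rfl, by push_cast; exact h⟩
  have hlt := norm_qCoeff_lt hg hq hqM
  rw [hgq, Complex.norm_intCast] at hlt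
  rcases hn with rfl | rfl
  · push_cast at hlt
    rw [abs_of_nonneg (by positivity)] at hlt
    exact lt_irrefl _ hlt
  · push_cast at hlt
    rw [abs_neg, abs_of_nonneg (by positivity)] at hlt
    exact lt_irrefl _ hlt

include hΔ hN hga hbad hMN in
/-- At a good prime away from the level the coefficient is the trace of Frobenius. -/
theorem qCoeff_eq_apOfModel (h30 : PointInput) (hg : g.IsNormalizedEigenform) {q : ℕ}
    (hq : q.Prime) (hgood : ¬ (q : ℤ) ∣ W.Δ) (hqM : ¬ q ∣ M) :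
    qCoeff g q = (W.apOfModel q : ℂ) := by
  obtain ⟨n, rfl, h⟩ := qCoeff_eq_of_trace hΔ hN hga hbad hMN h30 hg hq hqM
    (fun n => n = W.apOfModel q) fun l _ _ hql hns A hA σ hσ =>
      ⟨_, rfl, (Tate.trace_det_frobenius W hΔ hns hq hgood hql hA hσ).1⟩
  exact h

include hΔ hN hga hbad hMN in
/-- A prime exactly dividing the level is a bad prime. -/
theorem bad_of_dvd_not_sq_dvd (h35 : SteinbergInput) (hg : g.IsNewform) {q : ℕ} (hq : q.Prime)
    (hqM : q ∣ M) (hq2 : ¬ q ^ 2 ∣ M) : (q : ℤ) ∣ W.Δ := by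
  by_contra hgood
  obtain ⟨l, hl, hlB, hl2, hns⟩ := Tate.exists_hasNonscalar W hΔ (N + q)
  have hql : q ≠ l := by omega
  set S : Finset ℕ := insert l N.primeFactors
  have hlS : l ∈ S := Finset.mem_insert_self _ _
  have hmemS : ∀ {ℓ : ℕ}, ℓ.Prime → ℓ ∣ N → ℓ ∈ S := fun hℓ h =>
    Finset.mem_insert_of_mem (Nat.mem_primeFactors.2 ⟨hℓ, h, hN⟩)
  have hMS : ∀ r : ℕ, r.Prime → r ∣ M → r ∈ S := fun r hr hrM => hmemS hr (hrM.trans hMN)
  obtain ⟨chig, -, hT, -⟩ := DSLift.exists_ringHom_of_isNormalizedEigenform hg.1 (↑S : Set ℕ)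
  have hrange : chig.range ≤ (Int.castRingHom ℂ).range := range_le_int hMS fun ℓ hℓ hℓM hℓS =>
    ⟨_, (hT ℓ hℓ hℓM hℓS).trans (hga ℓ hℓ fun h => hℓS (hmemS hℓ h))⟩
  obtain ⟨ι, hι⟩ := exists_intHom (R := ℤ_[l]) hrange
  have hlO : (l : ℤ_[l]) ∈ IsLocalRing.maximalIdeal ℤ_[l] := by
    rw [PadicInt.maximalIdeal_eq_span_p]
    exact Ideal.mem_span_singleton_self _
  have : Finite (IsLocalRing.ResidueField ℤ_[l]) :=
    Finite.of_equiv (ZMod l) PadicInt.residueField.symm.toEquiv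
  obtain ⟨O'', j1, j2, j3, j4, j5, j6, j7, j8, j9, hinj, ρ, hρ, hρq⟩ :=
    h35 hg l S ℤ_[l] hlO chig hT ι hlS hMS
  have hl'' : (l : O'') ∈ IsLocalRing.maximalIdeal O'' := by
    rw [IsLocalRing.mem_maximalIdeal, mem_nonunits_iff] at hlO ⊢
    rw [← map_natCast (algebraMap ℤ_[l] O'') l]
    exact fun h => hlO (IsUnit.of_map _ _ h)
  have hall := charpoly_eq_tate W (R := O'') hΔ hl'' hns ρ (S := ↑S) S.finite_toSet hlS
    fun ℓ hℓ hℓS A hA τ hτ => by
      have hℓN : ¬ ℓ ∣ N := fun h => hℓS (hmemS hℓ h)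
      have hℓM : ¬ ℓ ∣ M := fun h => hℓN (h.trans hMN)
      refine ⟨fun h => hℓN (hbad ℓ hℓ h), ?_⟩
      rw [hρ ℓ hℓ hℓM hℓS A hA τ hτ, RingHom.comp_apply,
        hι _ _ ((RingHom.coe_rangeRestrict chig _).trans
          ((hT ℓ hℓ hℓM hℓS).trans (hga ℓ hℓ hℓN))), map_intCast]
  obtain ⟨A, σ, hA, hσ⟩ := RT.exists_place_isFrobeniusAt hq
  have h := hall σ
  rw [map_charpoly_tate_frobenius W hΔ hl'' hns hq hgood hql hA hσ] at h
  have hlt := Tate.apOfModel_sq_lt W hq hgood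
  rcases hρq q hq hql hqM hq2 A hA σ hσ with h' | h' <;> rw [h] at h'
  · have e : ((W.apOfModel q : ℤ) : O'') = (((q : ℤ) + 1 : ℤ) : O'') := by
      push_cast; exact linear_coeff_eq h'
    rw [Int.cast_injective e] at hlt
    nlinarith [sq_nonneg ((q : ℤ) - 1)]
  · have e : ((W.apOfModel q : ℤ) : O'') = ((-((q : ℤ) + 1) : ℤ) : O'') := by
      push_cast; exact linear_coeff_eq_neg h'
    rw [Int.cast_injective e] at hlt
    nlinarith [sq_nonneg ((q : ℤ) - 1)]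

include hΔ hN hga hbad hMN in
/-- No prime other than `p` divides the level exactly twice. -/
theorem factorization_ne_two (h36 : SupercuspidalInput) (hg : g.IsNewform)
    (hss : W.IsSemistableModel) {p : ℕ} [Fact p.Prime] (hp2 : p ≠ 2)
    (hirr : W.ModRepIsIrreducible p) {q : ℕ} (hq : q.Prime) (hqp : q ≠ p) :
    M.factorization q ≠ 2 := by
  intro hfac
  have hns := Tate.hasNonscalar_of_irreducible W hΔ hirr
  set S : Finset ℕ := insert p N.primeFactors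
  have hpS : p ∈ S := Finset.mem_insert_self _ _
  have hmemS : ∀ {ℓ : ℕ}, ℓ.Prime → ℓ ∣ N → ℓ ∈ S := fun hℓ h =>
    Finset.mem_insert_of_mem (Nat.mem_primeFactors.2 ⟨hℓ, h, hN⟩)
  have hMS : ∀ r : ℕ, r.Prime → r ∣ M → r ∈ S := fun r hr hrM => hmemS hr (hrM.trans hMN)
  obtain ⟨chig, -, hT, -⟩ := DSLift.exists_ringHom_of_isNormalizedEigenform hg.1 (↑S : Set ℕ)
  have hrange : chig.range ≤ (Int.castRingHom ℂ).range := range_le_int hMS fun ℓ hℓ hℓM hℓS =>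
    ⟨_, (hT ℓ hℓ hℓM hℓS).trans (hga ℓ hℓ fun h => hℓS (hmemS hℓ h))⟩
  obtain ⟨ι, hι⟩ := exists_intHom (R := ℤ_[p]) hrange
  have hpO : (p : ℤ_[p]) ∈ IsLocalRing.maximalIdeal ℤ_[p] := by
    rw [PadicInt.maximalIdeal_eq_span_p]
    exact Ideal.mem_span_singleton_self _
  have : Finite (IsLocalRing.ResidueField ℤ_[p]) :=
    Finite.of_equiv (ZMod p) PadicInt.residueField.symm.toEquiv
  have hmem'' : ∀ (O'' : Type) [CommRing O''] [IsLocalRing O''] [Algebra ℤ_[p] O'']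
      [IsLocalHom (algebraMap ℤ_[p] O'')], (p : O'') ∈ IsLocalRing.maximalIdeal O'' := by
    intro O'' _ _ _ _
    rw [IsLocalRing.mem_maximalIdeal, mem_nonunits_iff]
    rw [IsLocalRing.mem_maximalIdeal, mem_nonunits_iff] at hpO
    rw [← map_natCast (algebraMap ℤ_[p] O'') p]
    exact fun h => hpO (IsUnit.of_map _ _ h)
  have hfrob : ∀ (ℓ : ℕ) (hℓ : ℓ.Prime) (hℓS : ℓ ∉ (↑S : Set ℕ)),
      ∃ hℓM : ¬ ℓ ∣ M, ¬ (ℓ : ℤ) ∣ W.Δ ∧
        (ι.comp chig.rangeRestrict) (CuspForm.heckeAlgebra.T hℓ hℓM hℓS) =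
          (W.apOfModel ℓ : ℤ_[p]) := fun ℓ hℓ hℓS => by
    have hℓN : ¬ ℓ ∣ N := fun h => hℓS (hmemS hℓ h)
    have hℓM : ¬ ℓ ∣ M := fun h => hℓN (h.trans hMN)
    exact ⟨hℓM, fun h => hℓN (hbad ℓ hℓ h), hι _ _ ((RingHom.coe_rangeRestrict chig _).trans
      ((hT ℓ hℓ hℓM hℓS).trans (hga ℓ hℓ hℓN)))⟩
  obtain ⟨O'', j1, j2, j3, j4, j5, j6, j7, j8, j9, hinj, ρ, hρ, hρq⟩ :=
    h36 hg p S ℤ_[p] hpO hp2 chig hT ι hpS hMS (by
      intro O'' _ _ _ _ _ _ _ _ _ _ ρ hρ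
      have hp'' := hmem'' O''
      have hall := charpoly_eq_tate W (R := O'') hΔ hp'' hns ρ (S := ↑S) S.finite_toSet hpS
        fun ℓ hℓ hℓS A hA τ hτ => by
          obtain ⟨hℓM, hgood, he⟩ := hfrob ℓ hℓ hℓS
          refine ⟨hgood, ?_⟩
          rw [hρ ℓ hℓ (fun e => hℓS (e ▸ hpS)) hℓM hℓS A hA τ hτ, he, map_intCast]
      set k := IsLocalRing.ResidueField O''
      have hpk : (p : k) = 0 := by
        rw [← map_natCast (IsLocalRing.residue O''), IsLocalRing.residue_eq_zero_iff]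
        exact hp''
      have : CharP k p := (CharP.charP_iff_prime_eq_zero Fact.out).2 hpk
      have hmap : ∀ σ : GQ, (ρ.residual.ρ σ).charpoly =
          ((torsionRep W (p := p) hΔ).ρ σ).charpoly.map (ZMod.castHom dvd_rfl k) := fun σ => by
        rw [charpoly_residual_eq, hall σ, charpoly_torsionRep, Polynomial.map_map,
          Polynomial.map_map]
        exact congrArg (fun f => Polynomial.map f _) (padicHom_ext hpk _ _)
      refine ⟨isAbsolutelyIrreducible_of_charpoly_map _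
        (torsionRep_isAbsolutelyIrreducible W hΔ hp2 hirr) _ _ hmap, fun c hc hc1 => ?_⟩
      rw [det_eq_of_charpoly_map (torsionRep W (p := p) hΔ).finrank_eq ρ.residual.finrank_eq _
        (hmap c), torsionRep_isOdd W hΔ hp2 hirr c hc hc1, map_neg, map_one])
  have hp'' := hmem'' O''
  have hall := charpoly_eq_tate W (R := O'') hΔ hp'' hns ρ (S := ↑S) S.finite_toSet hpS
    fun ℓ hℓ hℓS A hA τ hτ => by
      obtain ⟨hℓM, hgood, he⟩ := hfrob ℓ hℓ hℓS
      exact ⟨hgood, by rw [hρ ℓ hℓ hℓM hℓS A hA τ hτ, he, map_intCast]⟩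
  refine hρq q hq hqp hfac fun A hA σ hσ => ?_
  rw [hall σ, ← Tate.charpoly_tateRep, Tate.charpoly_eq_of_unipotent hΔ σ fun n P hP => ?_]
  · simp
  · exact Local.galois_sub_sub_of_semistable W hq (Tate.intΔ_ne_zero W hΔ) (hss q hq)
      (fun h => hqp ((Nat.prime_dvd_prime_iff_eq hq Fact.out).1 (hq.dvd_of_dvd_pow h))) hA hσ hP

end Local

/-- The conductor level carries the curve. -/
theorem isModularModelOfLevel_conductorLevel (h35 : SteinbergInput) (h36 : SupercuspidalInput)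
    (h30 : PointInput) (W : WeierstrassCurve ℤ) (hss : W.IsSemistableModel) (N : ℕ) (p : ℕ)
    [Fact p.Prime] (hp2 : p ≠ 2) (hirr : W.ModRepIsIrreducible p) (hp2N : ¬ p ^ 2 ∣ N)
    (hN : W.IsModularModelOfLevel N) (hbad : ∀ ℓ : ℕ, ℓ.Prime → (ℓ : ℤ) ∣ W.Δ → ℓ ∣ N)
    (hN3 : ∀ q : ℕ, q.Prime → ¬ q ^ 3 ∣ N) :
    W.IsModularModelOfLevel W.conductorLevel := by
  have hN0 : N ≠ 0 := fun h => hp2N (h ▸ dvd_zero _)
  have hΔ0 : W.Δ ≠ 0 := fun h => by
    obtain ⟨ℓ, hℓN, hℓ⟩ := Nat.exists_infinite_primes (N + 1)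
    have := Nat.le_of_dvd (Nat.pos_of_ne_zero hN0) (hbad ℓ hℓ (h ▸ dvd_zero _))
    omega
  have hΔ : (W.map (Int.castRingHom ℚ)).Δ ≠ 0 := by
    rw [WeierstrassCurve.map_Δ, eq_intCast]; exact_mod_cast hΔ0
  obtain ⟨f, hf, hfa⟩ := hN
  obtain ⟨M, hM0, hMN, g, hg, hga'⟩ := exists_newform_of_eigenform hN0 hf
  have : NeZero M := ⟨hM0⟩
  have hga : ∀ ℓ : ℕ, ℓ.Prime → ¬ ℓ ∣ N → qCoeff g ℓ = (W.apOfModel ℓ : ℂ) := fun ℓ hℓ hℓN =>
    (hga' ℓ hℓ hℓN).trans (hfa ℓ hℓ (fun h => hℓN (hbad ℓ hℓ h)) hℓN)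
  have hsq : ∀ q : ℕ, q.Prime → ¬ q ^ 2 ∣ M := by
    intro q hq hq2
    by_cases hqp : q = p
    · exact hp2N (hqp ▸ hq2.trans hMN)
    refine factorization_ne_two hΔ hN0 hga hbad hMN h36 hg hss hp2 hirr hq hqp ?_
    refine le_antisymm ?_ ((hq.pow_dvd_iff_le_factorization hM0).1 hq2)
    by_contra h
    exact hN3 q hq (((hq.pow_dvd_iff_le_factorization hM0).2 (by omega)).trans hMN)
  have hMeq : M = W.conductorLevel := by
    refine Nat.Squarefree.ext_iff ?_ W.squarefree_conductorLevel |>.2 fun q hq => ?_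
    · rw [Nat.squarefree_iff_prime_squarefree]
      intro q hq h
      exact hsq q hq (by rwa [sq])
    rw [W.prime_dvd_conductorLevel_iff hΔ0 hq]
    exact ⟨fun h => bad_of_dvd_not_sq_dvd hΔ hN0 hga hbad hMN h35 hg hq h (hsq q hq),
      fun h => dvd_level_of_bad hΔ hN0 hga hbad hMN h30 hg.1 hss hq h⟩
  rw [← hMeq]
  exact ⟨g, hg.1, fun q hq hgood hqM =>
    qCoeff_eq_apOfModel hΔ hN0 hga hbad hMN h30 hg.1 hq hgood hqM⟩

end FermatAgent.Conductor
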